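import Fermat.Statements.S08
import Fermat.Agent.MF.Basic

set_option autoImplicit false
open WeierstrassCurve WeierstrassCurve.Affine WeierstrassCurve.Affine.Point
open CuspForm ModularFormClass UpperHalfPlane
open ModularForm

namespace Fermat.Agent.S08

theorem result (f : CuspForm (CongruenceSubgroup.Gamma0 1) 2) : f = 0 := by
  refine FermatAgent.MF.eq_zero_of_qCoeff_le_sturm f fun n hn => ?_
  have h : (CongruenceSubgroup.Gamma0 1).index = 1 := by
    rw [Subgroup.index_eq_one, Subgroup.eq_top_iff']
    intro A
    rw [CongruenceSubgroup.Gamma0_mem]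
    exact Subsingleton.elim _ _
  have : n = 0 := by
    simp only [FermatAgent.MF.sturm, h] at hn
    omega
  subst this
  exact FermatAgent.MF.qCoeff_index_zero f

end Fermat.Agent.S08
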