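-- Statement S51 (`WeierstrassCurve.modThreeOrFiveIrreducible`).
import Fermat.Statements.S51
import Fermat.Agent.ECLocal.ThreeFive

set_option autoImplicit false
open WeierstrassCurve WeierstrassCurve.Affine WeierstrassCurve.Affine.Point
open CuspForm ModularFormClass UpperHalfPlane
open WeierstrassCurve

namespace Fermat.Agent.S51

theorem result (W : WeierstrassCurve ℤ) (hΔ : W.Δ ≠ 0) (hW : W.IsSemistableModel) : W.ModRepIsIrreducible 3 ∨ W.ModRepIsIrreducible 5 := by
  by_contra hcon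
  rw [not_or] at hcon
  obtain ⟨h3, h5⟩ := hcon
  have : Fact (Nat.Prime 3) := ⟨Nat.prime_three⟩
  have : Fact (Nat.Prime 5) := ⟨by norm_num⟩
  have hΔq := FermatAgent.EC.intMap_Δ_ne_zero hΔ
  have key : ∀ (p : ℕ) [Fact p.Prime], ¬ W.ModRepIsIrreducible p →
      ∃ N : Submodule (ZMod p) (Submodule.torsionBy ℤ
        ((W.map (Int.castRingHom ℚ))⁄(AlgebraicClosure ℚ)).Point p),
        IsGaloisStable ℚ N ∧ N ≠ ⊥ ∧ N ≠ ⊤ := by
    intro p _ hirr
    have hnt : Nontrivial (Submodule.torsionBy ℤ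
        ((W.map (Int.castRingHom ℚ))⁄(AlgebraicClosure ℚ)).Point p) :=
      Module.nontrivial_of_finrank_eq_succ
        (FermatAgent.EC.finrank_torsionBy_rat (W.map (Int.castRingHom ℚ)) hΔq p)
    simp only [WeierstrassCurve.ModRepIsIrreducible, GaloisRepIsIrreducible, not_and, not_forall,
      exists_prop, not_or] at hirr
    exact hirr hnt
  obtain ⟨N₃, a₃, b₃, c₃⟩ := key 3 h3
  obtain ⟨N₅, a₅, b₅, c₅⟩ := key 5 h5
  exact FermatAgent.ECLocal.false_of_stable_lines hΔ
    (fun h => by simpa using hW 5 (by norm_num) (by simpa using h)) a₃ b₃ c₃ a₅ b₅ c₅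

end Fermat.Agent.S51
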