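import Fermat.Statements.S05
import Fermat.Agent.ECLocal.Frey

set_option autoImplicit false
open WeierstrassCurve WeierstrassCurve.Affine WeierstrassCurve.Affine.Point
open CuspForm ModularFormClass UpperHalfPlane
open FreyPackage

namespace Fermat.Agent.S05

theorem result (P : FreyPackage) {q : ℕ} (hq : q.Prime) (hq2 : q ≠ 2) (hqp : q ≠ P.p) : P.GaloisRepUnramifiedAt q := by
  unfold FreyPackage.GaloisRepUnramifiedAt
  rw [FermatAgent.ECLocal.freyCurve_eq_map P]
  intro A hA σ hσ x
  have hqn : ¬q ∣ P.p := fun h => hqp ((Nat.prime_dvd_prime_iff_eq hq P.pp).mp h)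
  have hx : P.p • x.1 = 0 := by
    have := x.2
    rw [Submodule.mem_torsionBy_iff, natCast_zsmul] at this
    exact this
  apply Subtype.ext
  show σ • x.1 = x.1
  by_cases hd : (q : ℤ) ∣ P.freyCurveInt.Δ
  · exact FermatAgent.ECLocal.inertia_fixes_of_multiplicative hq hA
      (FermatAgent.ECLocal.freyCurveInt_Δ_ne_zero P) hd
      (FermatAgent.ECLocal.frey_not_dvd_c₄ P hq (FermatAgent.ECLocal.frey_dvd_abc P hq hd))
      P.hp_odd hqn (FermatAgent.ECLocal.frey_valuation_Δ P hq hA hq2) hσ hx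
  · exact FermatAgent.ECLocal.inertia_fixes_of_good hq hA hd hqn hσ hx

end Fermat.Agent.S05
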