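import Fermat.Statements.S02

/-!
S02: a counterexample to FLT for a prime exponent `p ≥ 5` can be normalised to a Frey package.
-/

set_option autoImplicit false

namespace Fermat.Agent.S02

/-- A coprime solution with `b` even gives a Frey package, after a change of sign to make `a`
congruent to 3 mod 4. -/
theorem normalised_coprime (p : ℕ) (pp : p.Prime) (hp5 : 5 ≤ p) (a b c : ℤ) (ha : a ≠ 0)
    (hb : b ≠ 0) (hc : c ≠ 0) (H : a ^ p + b ^ p = c ^ p) (hg : gcd a b = 1)
    (hb2 : (2 : ℤ) ∣ b) : Nonempty FreyPackage := by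
  have hodd : Odd p := pp.odd_of_ne_two (by omega)
  have ha2 : ¬ (2 : ℤ) ∣ a := fun h => by
    have := dvd_gcd h hb2
    rw [hg] at this
    exact absurd this (by decide)
  have hbz : (b : ZMod 2) = 0 := (ZMod.intCast_zmod_eq_zero_iff_dvd b 2).2 hb2
  have h4 : a % 4 = 1 ∨ a % 4 = 3 := by omega
  rcases h4 with h4 | h4
  · refine ⟨⟨-a, -b, -c, by simpa using ha, by simpa using hb, by simpa using hc, p, pp, hp5,
      ?_, ?_, ?_, ?_⟩⟩
    · rw [hodd.neg_pow, hodd.neg_pow, hodd.neg_pow, ← H]; ring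
    · change ((Int.gcd (-a) (-b) : ℕ) : ℤ) = 1
      rw [Int.neg_gcd, Int.gcd_neg]
      exact hg
    · have e : (((-a : ℤ)) : ZMod 4) = ((3 : ℤ) : ZMod 4) :=
        (ZMod.intCast_eq_intCast_iff_dvd_sub _ _ _).2 (by push_cast; omega)
      simpa using e
    · simp [hbz]
  · refine ⟨⟨a, b, c, ha, hb, hc, p, pp, hp5, H, hg, ?_, hbz⟩⟩
    have e : ((a : ℤ) : ZMod 4) = ((3 : ℤ) : ZMod 4) :=
      (ZMod.intCast_eq_intCast_iff_dvd_sub _ _ _).2 (by push_cast; omega)
    simpa using e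

theorem result (a b c : ℤ) (ha : a ≠ 0) (hb : b ≠ 0) (hc : c ≠ 0) (p : ℕ) (pp : p.Prime) (hp5 : 5 ≤ p) (H : a ^ p + b ^ p = c ^ p) : Nonempty FreyPackage := by
  have hodd : Odd p := pp.odd_of_ne_two (by omega)
  -- divide out the common factor
  obtain ⟨a', b', hab, ha', hb'⟩ : ∃ a' b' : ℤ, Int.gcd a' b' = 1 ∧
      a = a' * (Int.gcd a b : ℤ) ∧ b = b' * (Int.gcd a b : ℤ) := by
    have hpos : 0 < Int.gcd a b := Int.gcd_pos_of_ne_zero_left _ ha
    obtain ⟨g, a', b', -, h1, h2, h3⟩ := Int.exists_gcd_one' hpos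
    refine ⟨a', b', h1, ?_, ?_⟩
    · have : Int.gcd a b = g := by rw [h2, h3, Int.gcd_mul_right, h1]; simp
      rw [this]; exact h2
    · have : Int.gcd a b = g := by rw [h2, h3, Int.gcd_mul_right, h1]; simp
      rw [this]; exact h3
  set g : ℤ := (Int.gcd a b : ℤ) with hgdef
  have hg0 : g ≠ 0 := by
    intro h; apply ha; rw [ha', h, mul_zero]
  have hgc : g ∣ c := by
    rw [← Int.pow_dvd_pow_iff pp.ne_zero, ← H, ha', hb', mul_pow, mul_pow]
    exact dvd_add (dvd_mul_left _ _) (dvd_mul_left _ _)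
  obtain ⟨c', hc'⟩ := hgc
  have ha0 : a' ≠ 0 := by rintro rfl; simp at ha'; exact ha ha'
  have hb0 : b' ≠ 0 := by rintro rfl; simp at hb'; exact hb hb'
  have hc0 : c' ≠ 0 := by rintro rfl; simp at hc'; exact hc hc'
  have H' : a' ^ p + b' ^ p = c' ^ p := by
    have := H
    rw [ha', hb', hc', mul_pow, mul_pow, mul_pow, mul_comm (g ^ p), ← add_mul] at this
    exact mul_right_cancel₀ (pow_ne_zero _ hg0) this
  have hgab : gcd a' b' = 1 := by
    change ((Int.gcd a' b' : ℕ) : ℤ) = 1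
    rw [hab]; rfl
  -- move an even entry into the second place
  by_cases hb2 : (2 : ℤ) ∣ b'
  · exact normalised_coprime p pp hp5 a' b' c' ha0 hb0 hc0 H' hgab hb2
  by_cases ha2 : (2 : ℤ) ∣ a'
  · refine normalised_coprime p pp hp5 b' a' c' hb0 ha0 hc0 (by rw [add_comm]; exact H') ?_ ha2
    rw [gcd_comm]; exact hgab
  -- both odd, hence c' even
  have hc2 : (2 : ℤ) ∣ c' := by
    have h1 : Odd a' := by rwa [← Int.not_even_iff_odd, even_iff_two_dvd]
    have h2 : Odd b' := by rwa [← Int.not_even_iff_odd, even_iff_two_dvd]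
    have h3 : Even (c' ^ p) := by rw [← H']; exact (h1.pow).add_odd (h2.pow)
    rw [← even_iff_two_dvd]
    exact ((Int.even_pow).1 h3).1
  refine normalised_coprime p pp hp5 a' (-c') (-b') ha0 (by simpa using hc0) (by simpa using hb0)
    ?_ ?_ (dvd_neg.2 hc2)
  · rw [hodd.neg_pow, hodd.neg_pow, ← H']; ring
  · change ((Int.gcd a' (-c') : ℕ) : ℤ) = 1
    rw [Int.gcd_neg]
    have := FreyPackage.gcdab_eq_gcdac pp.pos H'
    rw [hgab] at this
    exact this.symm

end Fermat.Agent.S02
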