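import Fermat.Statements.S07
import Fermat.Agent.MF.Basic

set_option autoImplicit false
open WeierstrassCurve WeierstrassCurve.Affine WeierstrassCurve.Affine.Point
open CuspForm ModularFormClass UpperHalfPlane
open ModularForm

namespace Fermat.Agent.S07

open scoped MatrixGroups in
/-- `Γ₀(2)` has index at most four: a coset is determined by the bottom row mod 2 of the inverse
of a representative. -/
theorem index_Gamma0_two_le : (CongruenceSubgroup.Gamma0 2).index ≤ 4 := by
  let φ : SL(2, ℤ) → ZMod 2 × ZMod 2 := fun g => ((g⁻¹) 1 0, (g⁻¹) 1 1)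
  rw [Subgroup.index_eq_card]
  have : Nat.card (ZMod 2 × ZMod 2) = 4 := by simp
  rw [← this]
  refine Nat.card_le_card_of_injective (fun q => φ q.out) fun a b hab => ?_
  rw [← QuotientGroup.out_eq' a, ← QuotientGroup.out_eq' b]
  apply QuotientGroup.eq.mpr
  rw [CongruenceSubgroup.Gamma0_mem]
  simp only [φ, Prod.mk.injEq] at hab
  have h1 := hab.1
  have h2 := hab.2
  generalize a.out = g at *
  generalize b.out = g' at *
  simp [Matrix.SpecialLinearGroup.coe_inv, Matrix.adjugate_fin_two,
    Matrix.SpecialLinearGroup.coe_mul, Matrix.mul_apply, Fin.sum_univ_two] at *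
  rw [h1, h2]
  ring_nf
  simp [show (2 : ZMod 2) = 0 from rfl]

theorem result (f : CuspForm (CongruenceSubgroup.Gamma0 2) 2) : f = 0 := by
  refine FermatAgent.MF.eq_zero_of_qCoeff_le_sturm f fun n hn => ?_
  have h := index_Gamma0_two_le
  have : n = 0 := by
    simp only [FermatAgent.MF.sturm] at hn
    omega
  subst this
  exact FermatAgent.MF.qCoeff_index_zero f

end Fermat.Agent.S07
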