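-- Statement S13 (`FreyPackage.frey_reducible_hasCofixedLine`).
import Fermat.Statements.S13
import Fermat.Agent.ECLocal.StableLine
import Fermat.Agent.ECLocal.AtTwo

set_option autoImplicit false
open WeierstrassCurve WeierstrassCurve.Affine WeierstrassCurve.Affine.Point
open CuspForm ModularFormClass UpperHalfPlane
open FreyPackage

namespace Fermat.Agent.S13

theorem result (P : FreyPackage) (hred : ¬ GaloisRepIsIrreducible (K := AlgebraicClosure ℚ) ℚ P.freyCurve P.p) : HasGaloisStableCofixedLine (K := AlgebraicClosure ℚ) ℚ P.freyCurve P.p := by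
  have : Fact P.p.Prime := ⟨P.pp⟩
  rw [FermatAgent.ECLocal.freyCurve_eq_map] at hred ⊢
  have hΔ0 := FermatAgent.ECLocal.freyCurveInt_Δ_ne_zero P
  have hss : ∀ q : ℕ, q.Prime → (q : ℤ) ∣ P.freyCurveInt.Δ → ¬(q : ℤ) ∣ P.freyCurveInt.c₄ :=
    fun q hq h => FermatAgent.ECLocal.frey_not_dvd_c₄ P hq (FermatAgent.ECLocal.frey_dvd_abc P hq h)
  have hV2 := FermatAgent.EC.finrank_torsionBy_rat (P.freyCurveInt.map (Int.castRingHom ℚ))
    (FermatAgent.EC.intMap_Δ_ne_zero hΔ0) P.p
  have hnt : Nontrivial (Submodule.torsionBy ℤ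
      ((P.freyCurveInt.map (Int.castRingHom ℚ))⁄(AlgebraicClosure ℚ)).Point P.p) :=
    Module.nontrivial_of_finrank_eq_succ hV2
  simp only [GaloisRepIsIrreducible, not_and, not_forall, exists_prop, not_or] at hred
  obtain ⟨N, hN, h0, h1⟩ := hred hnt
  rcases FermatAgent.ECLocal.fix_line_or_cofix P.hp_odd hΔ0 hss hN h0 h1 with h | h
  · exfalso
    obtain ⟨x, hx, hx0⟩ := Submodule.exists_mem_ne_zero_of_ne_bot h0
    refine hx0 (Subtype.ext ?_)
    exact FermatAgent.ECLocal.frey_fixed_torsion_eq_zero P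
      (fun σ => congr_arg Subtype.val (h σ x hx))
      (FermatAgent.ECLocal.nsmul_coe_torsion x)
  · exact ⟨N, hN, h0, h1, h⟩

end Fermat.Agent.S13
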