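import Fermat.Statements.S18
import Fermat.Agent.Curve.ConstRed.Modular

/-!
S18: reduction of `J₀(N)` at `ℓ ∤ N` is injective on torsion of order prime to `ℓ`, deduced from
injectivity for a constant reduction of the function field.
-/

set_option autoImplicit false
open ModularCurve AlgebraicCurve FermatAgent.Curve

namespace Fermat.Agent.S18

theorem result (N : ℕ) [NeZero N] {ℓ : ℕ}
    [Fact ℓ.Prime] (hℓN : ¬ ℓ ∣ N) (A : ValuationSubring (AlgebraicClosure ℚ)) (hA : A.LiesOverPrime ℓ)
    (h : ModularCurve.ReductionInputsModL A N) (m : ℕ) (hm : ¬ ℓ ∣ m) (z : ModularCurve.JZero N)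
    (hmz : m • z = 0) (hz : ModularCurve.reductionModL A N z = 0) :
    z = 0 := by
  have := FermatAgent.isAlgClosed_residueField A
  have := Red.isFF_bar N
  have := Red.isFF_fullC hA (N := N) hℓN
  obtain ⟨S, hSr, hgen⟩ := Red.exists_constRed_for hA hℓN (modularFunctionFieldBar N)
    (modularFunctionFieldBar_eq_jField N) (placeReductionModL h)
    (isPlaceReductionModL_placeReductionModL h).2
  obtain ⟨D, rfl⟩ := Pic0.mk_surjective z
  rw [reductionModL_mk h] at hz
  obtain ⟨g, hg, hgD⟩ := AddSubgroup.mem_addSubgroupOf.1 ((QuotientAddGroup.eq_zero_iff _).1 hz)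
  exact Red.mk_eq_zero_of_reduction hA S hgen hm hmz hg (by rw [hSr]; exact Finsupp.ext hgD)

end Fermat.Agent.S18
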