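import Fermat.Statements.S49
import Fermat.Agent.MF.Lifting

/-!
S49: a mod 3 lattice-realised eigensystem of weight one lifts to a normalised eigenform of weight 2
congruent to it modulo a prime over 3. Multiplying by the weight one Eisenstein series leaves an
expansion unchanged mod 3.
-/

set_option autoImplicit false
open CuspForm EisensteinWeightOne CongruenceSubgroup ModularFormClass
open FLT FLT.AbstractIntegralStructure

namespace Fermat.Agent.S49

/-- The weight one Eisenstein series of level 3 is congruent to 1 mod 3. -/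
theorem e1_coeff_zmod (n : ℕ) :
    ((e1Chi3.coeff n : ℤ) : ZMod 3) = if n = 0 then 1 else 0 := by
  rw [e1Chi3, PowerSeries.coeff_mk]
  split
  · simp
  · push_cast
    rw [show (6 : ZMod 3) = 0 from rfl, zero_mul]

/-- Multiplying by the Eisenstein series does not change an expansion mod 3. -/
theorem bridgeProduct_coeff_zmod (a : ℕ → ℤ) (n : ℕ) :
    (((bridgeProduct a).coeff n : ℤ) : ZMod 3) = (a n : ZMod 3) := by
  have he : (e1Chi3In ℤ).map (Int.castRingHom (ZMod 3)) = 1 := by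
    ext m
    rw [e1Chi3In, PowerSeries.coeff_map, PowerSeries.coeff_map, PowerSeries.coeff_one]
    simpa using e1_coeff_zmod m
  have h := congrArg (PowerSeries.coeff n)
    (map_mul (PowerSeries.map (Int.castRingHom (ZMod 3))) (PowerSeries.mk a) (e1Chi3In ℤ))
  rw [he, mul_one, PowerSeries.coeff_map, PowerSeries.coeff_map, PowerSeries.coeff_mk] at h
  exact h

/-- The character `χ₋₃` reduces to the identity mod 3. -/
theorem chiNegThree_zmod (ℓ : ℕ) : ((chiNegThree ℓ : ℤ) : ZMod 3) = (ℓ : ZMod 3) := by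
  conv_rhs => rw [← ZMod.natCast_mod ℓ 3]
  unfold chiNegThree
  have : ℓ % 3 < 3 := Nat.mod_lt _ (by norm_num)
  interval_cases ℓ % 3 <;> decide

theorem result
    {N : ℕ} [NeZero N] (h : CuspForm.HasIntegralBasis N) {a : ℕ → ℤ}
    (heig : FormalHecke.IsEigensystem
      (fun ℓ => if ℓ ∣ N then 0 else ((chiNegThree ℓ : ℤ) : ℤ)) a)
    (hreal : CuspForm.IsLatticeRealized N a) :
    ∃ (f : CuspForm (Gamma0 N) 2) (_ : f.IsNormalizedEigenform)
      (𝔪' : Ideal (integralClosure ℤ ℂ)), 𝔪'.IsMaximal ∧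
      ((3 : ℕ) : integralClosure ℤ ℂ) ∈ 𝔪' ∧
      ∀ (ℓ : ℕ) (_ : ℓ.Prime) (_ : ¬ ℓ ∣ N),
        ∃ c : integralClosure ℤ ℂ, (c : ℂ) = ModularFormClass.qCoeff f ℓ ∧
          c - (a ℓ : integralClosure ℤ ℂ) ∈ 𝔪' := by
  obtain ⟨f, hf, af, haf, hcong⟩ := hreal
  have hmem : ∀ n, qCoeff f n ∈ (Int.castRingHom ℂ).range := fun n => ⟨af n, haf n⟩
  -- `π` reduces an integral coefficient mod 3
  let π : (Int.castRingHom ℂ).range →+* ZMod 3 :=
    (Int.castRingHom (ZMod 3)).comp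
      ((RingEquiv.ofBijective (Int.castRingHom ℂ).rangeRestrict
        ⟨fun x y hxy => Int.cast_injective (congrArg Subtype.val hxy),
          (Int.castRingHom ℂ).rangeRestrict_surjective⟩).symm.toRingHom)
  have hπ : ∀ (x : (Int.castRingHom ℂ).range) (z : ℤ), (x : ℂ) = z → π x = (z : ZMod 3) := by
    intro x z hx
    rw [show x = ((z : ℤ) : (Int.castRingHom ℂ).range) from Subtype.ext (by simpa using hx),
      map_intCast]
  have hπf : ∀ n, π ⟨_, hmem n⟩ = (a n : ZMod 3) := fun n => by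
    rw [hπ ⟨_, hmem n⟩ (af n) (haf n).symm, ← bridgeProduct_coeff_zmod a n, ← sub_eq_zero,
      ← Int.cast_sub, ZMod.intCast_zmod_eq_zero_iff_dvd]
    exact hcong n
  have hn₀ : π ⟨_, hmem 1⟩ ≠ 0 := by
    rw [hπf, heig.1]
    decide
  -- `f` gives a mod 3 character of the Hecke algebra with values `a ℓ`
  obtain ⟨θ, hθ, -⟩ := FermatAgent.MF.exists_hom_of_eigen_mod (S := ∅) one_le_two π f hmem hn₀
    (fun ℓ => (a ℓ : ZMod 3)) (by
    intro ℓ hℓ hS n
    rw [hπf, hπ _ (af (ℓ * n) +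
        (if ℓ ∣ N then 0 else (ℓ : ℤ)) * if ℓ ∣ n then af (n / ℓ) else 0) ?_,
      ← Int.cast_mul, ← heig.2 ℓ hℓ n]
    · have hc : ∀ m, (af m : ZMod 3) = (a m : ZMod 3) := fun m => by
        rw [← hπf m, hπ ⟨_, hmem m⟩ (af m) (haf m).symm]
      push_cast [apply_ite, hc]
      split_ifs <;> simp [chiNegThree_zmod]
    · show qCoeff _ n = _
      rw [FermatAgent.MF.qCoeff_heckeAt, FermatAgent.MF.heckeConst]
      push_cast [apply_ite, ← haf]
      split_ifs <;> norm_num)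
  have hI : CuspForm.HasIntegralStructure N 2 := (FermatAgent.MF.hasIntegralBasis_iff N).mp h
  obtain ⟨g, χ, 𝔐, hg, -, hχℓ, h𝔐, h3, hcomap⟩ :=
    FermatAgent.MF.exists_isEigen_lift_of_hom hI 3 θ
  refine ⟨g, (FermatAgent.MF.isEigen_iff_isNormalizedEigenform g).mp hg, 𝔐, h𝔐, h3,
    fun ℓ hℓ _ => ⟨_, hχℓ ℓ hℓ, ?_⟩⟩
  rw [← map_intCast χ, ← map_sub, ← Ideal.mem_comap, hcomap, RingHom.mem_ker, map_sub,
    map_intCast, hθ ℓ hℓ (Set.notMem_empty ℓ), sub_self]

end Fermat.Agent.S49
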