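import Fermat.Statements.S01
import Fermat.Agent.Assembly.FreyLowering

/-!
# Fermat's Last Theorem

The route is described at the top of `Fermat/Agent/Assembly/FreyLowering.lean`: a solution gives a
Frey curve, which is semistable, hence modular; lowering the level of its mod `p` representation
gives a weight two cusp form of level `2`, and there is none.
-/

set_option autoImplicit false

namespace Fermat.Agent.S01

/-- Fermat's Last Theorem. -/
theorem result (n : ℕ) (hn : 3 ≤ n) (a b c : ℕ) (ha : 0 < a) (hb : 0 < b) (hc : 0 < c) : a ^ n + b ^ n ≠ c ^ n := by
  exact FermatAgent.Assembly.s01_of n hn a b c ha hb hc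

end Fermat.Agent.S01
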