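import Fermat.Statements.S03
import Fermat.Agent.Assembly.FreyLowering

set_option autoImplicit false
open FreyPackage

namespace Fermat.Agent.S03

/-- There is no Frey package: at level `2` there are no cusp forms of weight two. -/
theorem result (P : FreyPackage) : False := by
  exact FermatAgent.Assembly.s03_of P

end Fermat.Agent.S03
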