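import Fermat.Statements.S14
import Fermat.Agent.CFT.Radicand

/-!
S14: vanishing of the extension group. The extension class is a Kummer cocycle which is unramified
outside `p` and split at `p`, hence a coboundary, and the extension splits globally.
-/

set_option autoImplicit false
open ExtCitation

namespace Fermat.Agent.S14

open FermatAgent.CFT FermatAgent.GaloisBasic in
theorem result {p : ℕ} [Fact p.Prime] (h3 : 3 ≤ p) :
    ExtCitation.ExtVanishingCts p := by
  intro V _ _ _ _ C hC
  have hp : p.Prime := Fact.out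
  obtain ⟨A₀, hA₀⟩ := exists_liesOverPrime hp
  obtain ⟨C', hC'stab, hC'⟩ := hC.locally_split A₀ hA₀
  have : Finite V := Nat.finite_of_card_ne_zero (by rw [hC.card_total]; positivity)
  -- `c₀` spans the sub line `C`, `v₀` the local complement `C'`
  obtain ⟨c₀, hc₀, hc₀'⟩ := Submodule.exists_mem_ne_zero_of_ne_bot (p := C) fun h => by
    have := hC.card_sub
    rw [h] at this
    simp at this
    omega
  obtain ⟨v₀, hv₀, hv₀'⟩ := Submodule.exists_mem_ne_zero_of_ne_bot (p := C') fun h => by
    have htop : C = ⊤ := by simpa [h] using hC'.sup_eq_top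
    have := hC.card_sub
    rw [htop, Nat.card_congr Submodule.topEquiv.toEquiv, hC.card_total] at this
    nlinarith
  have hv₀C : v₀ ∉ C := fun h => hv₀' (Submodule.disjoint_def.mp hC'.disjoint v₀ h hv₀)
  have hinj : Function.Injective fun r : ZMod p × ZMod p => r.1 • v₀ + r.2 • c₀ := by
    intro r r' h
    have h' : (r.1 - r'.1) • v₀ = (r'.2 - r.2) • c₀ := by
      simp only at h
      rw [sub_smul, sub_smul, sub_eq_sub_iff_add_eq_add, add_comm (r'.2 • c₀)]
      exact h
    have h1 : r.1 = r'.1 := by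
      by_contra hr
      have := C.smul_mem (r.1 - r'.1)⁻¹ (h' ▸ C.smul_mem (r'.2 - r.2) hc₀)
      rw [smul_smul, inv_mul_cancel₀ (sub_ne_zero.mpr hr), one_smul] at this
      exact hv₀C this
    rw [h1, sub_self, zero_smul, eq_comm, smul_eq_zero] at h'
    exact Prod.ext h1 (sub_eq_zero.mp (h'.resolve_right hc₀')).symm
  have hsurj : ∀ x : V, ∃ r k : ZMod p, r • v₀ + k • c₀ = x := fun x => by
    have hcard : Nat.card V ≤ Nat.card (ZMod p × ZMod p) := by
      rw [hC.card_total, Nat.card_prod, Nat.card_zmod, pow_two]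
    obtain ⟨⟨r, k⟩, h⟩ := (hinj.bijective_of_nat_card_le hcard).2 x
    exact ⟨r, k, h⟩
  have hCspan : ∀ x ∈ C, ∃ k : ZMod p, x = k • c₀ := fun x hx => by
    obtain ⟨r, k, rfl⟩ := hsurj x
    refine ⟨k, ?_⟩
    by_cases hr : r = 0
    · simp [hr]
    · refine absurd ?_ hv₀C
      have := C.smul_mem r⁻¹ (C.sub_mem hx (C.smul_mem k hc₀))
      rwa [add_sub_cancel_right, smul_smul, inv_mul_cancel₀ hr, one_smul] at this
  -- `σ • v₀ = cyc p σ • v₀ + a σ • c₀`
  choose a ha using fun σ => hCspan _ (hC.cyclo_quot σ v₀)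
  have hact : ∀ σ, σ • v₀ = cyc p σ • v₀ + a σ • c₀ := fun σ => by
    have : σ • v₀ - cyc p σ • v₀ = a σ • c₀ := ha σ
    rw [← this]
    abel
  have hlin : ∀ σ (r k : ZMod p),
      σ • (r • v₀ + k • c₀) = (r * cyc p σ) • v₀ + (r * a σ + k) • c₀ := fun σ r k => by
    rw [smul_add, smul_comm σ r, smul_comm σ k, hact, hC.fixed_sub σ c₀ hc₀, smul_add, smul_smul,
      smul_smul, add_smul, add_assoc]
  have huniq : ∀ {r r' k k' : ZMod p}, r • v₀ + k • c₀ = r' • v₀ + k' • c₀ → r = r' ∧ k = k' :=
    fun {r r' k k'} h => Prod.mk.inj (hinj (a₁ := (r, k)) (a₂ := (r', k')) h)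
  have hfix : ∀ σ, (∀ x : V, σ • x = x) ↔ cyc p σ = 1 ∧ a σ = 0 := fun σ => by
    constructor
    · intro h
      have h' := h v₀
      rw [hact] at h'
      exact huniq (r' := 1) (k' := 0) (by simpa using h')
    · rintro ⟨h1, h2⟩ x
      obtain ⟨r, k, rfl⟩ := hsurj x
      rw [hlin, h1, h2, mul_one, mul_zero, zero_add]
  -- `a` is a Kummer cocycle of the kind handled in `CFT.Radicand`
  let D : KummerCocycle p :=
    { a := a
      map_mul' := fun σ τ => by
        have h := mul_smul σ τ v₀
        rw [hact (σ * τ), hact τ, hlin] at h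
        exact (huniq h).2
      isOpen' := by
        have := hC.open_kernel
        rwa [show {σ : GQ | ∀ v : V, σ • v = v} = {σ | cyc p σ = 1 ∧ a σ = 0} from
          Set.ext hfix] at this
      unramified' := fun ℓ hℓ hℓp A hA σ hσ =>
        (hfix σ).mp (hC.unramified_outside ℓ hℓ hℓp A hA σ hσ)
      A₀ := A₀
      liesOver' := hA₀
      split' := fun σ hσ => by
        have h1 : a σ • c₀ ∈ C' := by
          have := C'.sub_mem (hC'stab σ hσ v₀ hv₀) (C'.smul_mem (cyc p σ) hv₀)
          rwa [hact, add_sub_cancel_left] at this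
        exact (smul_eq_zero.mp (Submodule.disjoint_def.mp hC'.disjoint _ (C.smul_mem _ hc₀) h1)
          ).resolve_right hc₀' }
  obtain ⟨k, hk⟩ := D.exists_coboundary h3
  -- correcting `v₀` by the coboundary gives the global complement
  refine ⟨Submodule.span (ZMod p) {v₀ + k • c₀}, fun σ x hx => ?_, ?_⟩
  · obtain ⟨r, rfl⟩ := Submodule.mem_span_singleton.mp hx
    refine Submodule.mem_span_singleton.mpr ⟨r * cyc p σ, ?_⟩
    rw [smul_add, smul_smul, smul_add r, smul_smul, hlin]
    congr 1
    rw [show a σ = k * (cyc p σ - 1) from hk σ]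
    congr 1
    ring
  · constructor
    · rw [Submodule.disjoint_def]
      intro x hx hx'
      obtain ⟨r, rfl⟩ := Submodule.mem_span_singleton.mp hx'
      obtain ⟨l, hl⟩ := hCspan _ hx
      rw [smul_add, smul_smul] at hl
      obtain ⟨hr, -⟩ := huniq (r' := 0) (k' := l) (by rw [hl, zero_smul, zero_add])
      rw [hr, zero_smul]
    · rw [codisjoint_iff, eq_top_iff]
      intro x _
      obtain ⟨r, l, rfl⟩ := hsurj x
      refine Submodule.mem_sup.mpr ⟨(l - r * k) • c₀, C.smul_mem _ hc₀, r • (v₀ + k • c₀),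
        Submodule.smul_mem _ _ (Submodule.mem_span_singleton_self _), ?_⟩
      rw [sub_smul, smul_add, smul_smul]
      abel

end Fermat.Agent.S14
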