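import Fermat.Statements.S19
import Fermat.Agent.Flat.Model
import Fermat.Agent.Flat.ModularCoords
import Fermat.Agent.Flat.ModularTorsion

/-!
S19: the `ℓ ^ k` torsion of `J₀(p)` has a finite flat Hopf algebra model over `ℤ_(ℓ)`, built from a
system of integral coordinates.
-/

set_option autoImplicit false
open ModularCurve FermatAgent.Flat FermatAgent.GaloisBasic

namespace Fermat.Agent.S19

theorem result
    (p : ℕ) [NeZero p] (ℓ : ℕ) [Fact ℓ.Prime] (hℓp : ¬ ℓ ∣ p) (k : ℕ) :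
    ∃ (H : Type) (_ : CommRing H) (_ : HopfAlgebra (GaloisRep.ratLocalizedAt ℓ) H),
      Module.Finite (GaloisRep.ratLocalizedAt ℓ) H ∧ Module.Flat (GaloisRep.ratLocalizedAt ℓ) H ∧
      Coalgebra.IsCocomm (GaloisRep.ratLocalizedAt ℓ) H ∧
      ∃ e : WithConv (H →ₐ[GaloisRep.ratLocalizedAt ℓ] AlgebraicClosure ℚ) ≃
          ↥(Submodule.torsionBy ℤ (JZero p) ((ℓ : ℤ) ^ k)),
        (∀ f g, e (f * g) = e f + e g) ∧
        ∀ (σ : AlgebraicClosure ℚ ≃ₐ[ℚ] AlgebraicClosure ℚ)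
          (f g : WithConv (H →ₐ[GaloisRep.ratLocalizedAt ℓ] AlgebraicClosure ℚ)),
          (∀ h : H, g h = σ (f h)) → ((e g : JZero p)) = σ • (e f : JZero p) := by
  set M := ↥(Submodule.torsionBy ℤ (JZero p) ((ℓ : ℤ) ^ k))
  let : DistribMulAction GQ M := torsionAction p _
  have hn : 0 < ℓ ^ k := pow_pos (Fact.out : ℓ.Prime).pos k
  have := finite_jZero_torsion p hn
  have : Finite M := Finite.of_injective (β := {c : JZero p // ℓ ^ k • c = 0})
    (fun x => ⟨x.1, by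
      have h := (Submodule.mem_torsionBy_iff ((ℓ : ℤ) ^ k) (x.1 : JZero p)).1 x.2
      rw [← natCast_zsmul]
      exact (congrArg (· • (x.1 : JZero p)) (Nat.cast_pow (α := ℤ) ℓ k)).trans h⟩)
    fun x y h => Subtype.ext (congrArg (fun c : {c : JZero p // ℓ ^ k • c = 0} => c.1) h)
  obtain ⟨A, hA⟩ := exists_liesOverPrime (Fact.out : ℓ.Prime)
  obtain ⟨L, Φ, hL, hLG, hΦ⟩ := exists_isCoordSystem (M := M) hA hℓp
    (Submodule.torsionBy ℤ (JZero p) ((ℓ : ℤ) ^ k)).subtype.toAddMonoidHom Subtype.val_injective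
    (fun _ _ => rfl)
  obtain ⟨H, i1, i2, hfin, hflat, hco, e, hadd, hσ⟩ := exists_model hA hΦ
  exact ⟨H, i1, i2, hfin, hflat, hco, e, hadd, fun σ f g h =>
    congrArg Subtype.val (hσ σ f g h)⟩

end Fermat.Agent.S19
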