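-- Statement S24 (`ModularCurve.genus_modularFunctionFieldBar_eq_genusFormula`).
import Fermat.Statements.S24
import Fermat.Agent.Curve.ModularGenus

set_option autoImplicit false
open ModularCurve

namespace Fermat.Agent.S24

theorem result (N : ℕ) [NeZero N]
    [AlgebraicCurve.HasCanonicalDivisor (K := AlgebraicClosure ℚ) (F := ↥(ModularCurve.modularFunctionFieldBar N))] :
    (AlgebraicCurve.genus (AlgebraicClosure ℚ) ↥(ModularCurve.modularFunctionFieldBar N) : ℚ)
      = ModularCurve.genusFormula N := by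
  have : Algebra.IsAlgebraic ℚ (AlgebraicClosure ℚ) := AlgebraicClosure.isAlgebraic ℚ
  let _ : Algebra (AlgebraicClosure ℚ) ℂ :=
    (IsAlgClosed.lift (R := ℚ) (S := AlgebraicClosure ℚ) (M := ℂ)).toRingHom.toAlgebra
  exact FermatAgent.Curve.genus_of_eq_jField (AlgebraicClosure ℚ) N _
    (FermatAgent.Curve.modularFunctionFieldBar_eq_jField N)

end Fermat.Agent.S24
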