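-- Statement S32 (`CuspForm.HeckeGaloisRepDatum.isFlatAt_of_primeFactors_subset`).
import Fermat.Statements.S32
import Fermat.Agent.Flat.Hecke.FlatModule

set_option autoImplicit false
variable {p : ℕ} {N : ℕ} [NeZero N] {S : Finset ℕ}
  {𝒪 : Type} [CommRing 𝒪] [IsDomain 𝒪] [IsDiscreteValuationRing 𝒪]
  [IsAdicComplete (IsLocalRing.maximalIdeal 𝒪) 𝒪]
  {θ : CuspForm.heckeAlgebra N 2 (↑S : Set ℕ) →+* IsLocalRing.ResidueField 𝒪}
  {T : Type} [CommRing T] [IsLocalRing T] [IsNoetherianRing T]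
  [IsAdicComplete (IsLocalRing.maximalIdeal T) T] [Algebra 𝒪 T] [IsLocalHom (algebraMap 𝒪 T)]
  [Module.Finite 𝒪 T] [Module.Free 𝒪 T]
open CuspForm CuspForm.HeckeGaloisRepDatum

namespace Fermat.Agent.S32

theorem result
    [Finite (IsLocalRing.ResidueField 𝒪)] [CharZero 𝒪]
    (hp : p.Prime) (hp2 : p ≠ 2) (hp𝒪 : (p : 𝒪) ∈ IsLocalRing.maximalIdeal 𝒪) (hpN : ¬ p ∣ N)
    (hpS : p ∈ S) (hNS : ∀ q : ℕ, q.Prime → q ∣ N → q ∈ S)
    (H : CuspForm.HeckeGaloisRepDatum N (↑S : Set ℕ) 𝒪 θ T) :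
    H.ρ.IsFlatAt p := by
  have : Fact p.Prime := ⟨hp⟩
  have : Finite (IsLocalRing.ResidueField T) :=
    Finite.of_surjective
      (fun x : IsLocalRing.ResidueField 𝒪 => IsLocalRing.ResidueField.map (algebraMap 𝒪 T) x)
      (fun y => by
        obtain ⟨a, ha⟩ := H.residue_surjective y
        exact ⟨IsLocalRing.residue 𝒪 a, ha⟩)
  refine ⟨inferInstance, fun I hI => ?_⟩
  have := hI
  exact FermatAgent.Flat.Hecke.exists_level_model p H hp2 hp𝒪 hpN hpS hNS I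

end Fermat.Agent.S32
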