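-- Statement S42 (`FreyPackage.eigenformResidualAttachmentAtFamily`).
import Fermat.Statements.S42
import Fermat.Agent.ES.Tate.Frey

set_option autoImplicit false
open FreyPackage

namespace Fermat.Agent.S42

theorem result (P : FreyPackage) :
    ∀ M : ℕ, 0 < M → P.EigenformResidualAttachmentAt M := by
  exact fun M _ => FermatAgent.ES.eigenformResidualAttachmentAt P M

end Fermat.Agent.S42
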