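import Fermat.Statements.S45
import Fermat.Agent.Assembly.FreyLowering

set_option autoImplicit false
open WeierstrassCurve WeierstrassCurve.Affine WeierstrassCurve.Affine.Point
open CuspForm ModularFormClass UpperHalfPlane
open FreyPackage

namespace Fermat.Agent.S45

/-- The irreducible Frey representation descends to level `2`, so level `2` has a nonzero cusp
form. -/
theorem result (P : FreyPackage) (hmod : P.freyCurve.IsModular) (hirr : GaloisRepIsIrreducible (K := AlgebraicClosure ℚ) ℚ P.freyCurve P.p) : ∃ f : CuspForm (CongruenceSubgroup.Gamma0 2) 2, f ≠ 0 := by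
  rw [FermatAgent.ECLocal.freyCurve_eq_map] at hirr
  exact FermatAgent.Assembly.s45_of P hirr

end Fermat.Agent.S45
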