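-- Statement S52 (`WeierstrassCurve.threeFiveSwitchCurve`).
import Fermat.Statements.S52
import Fermat.Agent.Switch2.Steps
import Fermat.Agent.EC.GoodPrimeTrace

set_option autoImplicit false
open WeierstrassCurve WeierstrassCurve.Affine WeierstrassCurve.Affine.Point
open CuspForm ModularFormClass UpperHalfPlane
open WeierstrassCurve

namespace Fermat.Agent.S52

theorem result (W : WeierstrassCurve ℤ) (hΔ : W.Δ ≠ 0) (hW : W.IsSemistableModel) (h5 : W.ModRepIsIrreducible 5) : ∃ W' : WeierstrassCurve ℤ, W'.Δ ≠ 0 ∧ W'.IsSemistableModel ∧ W'.ModRepIsIrreducible 3 ∧ ∀ ℓ : ℕ, ℓ.Prime → W.IsGoodPrimeFor ℓ → W'.IsGoodPrimeFor ℓ → ℓ ≠ 5 → (5 : ℤ) ∣ (W'.apOfModel ℓ - W.apOfModel ℓ) := by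
  have : Fact (Nat.Prime 5) := ⟨by norm_num⟩
  obtain ⟨W', ⟨hΔ', hW', hT, -⟩, h3⟩ := FermatAgent.Switch2.exists_switch W hΔ hW
  refine ⟨W', hΔ', hW', h3, fun ℓ hℓ hg hg' hℓ5 => ?_⟩
  obtain ⟨A, hA⟩ := FermatAgent.GaloisBasic.exists_liesOverPrime hℓ
  obtain ⟨σ, hσ⟩ := FermatAgent.GaloisBasic.exists_isFrobeniusAt hℓ hA
  have h := FermatAgent.Switch.galoisTrace_eq_of_torEquiv hT σ
  rw [FermatAgent.EC.galoisTrace_frobenius_eq_apOfModel W hℓ hg hℓ5 hA hσ,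
    FermatAgent.EC.galoisTrace_frobenius_eq_apOfModel W' hℓ hg' hℓ5 hA hσ] at h
  rw [show (5 : ℤ) = ((5 : ℕ) : ℤ) from rfl, ← ZMod.intCast_zmod_eq_zero_iff_dvd, Int.cast_sub,
    h, sub_self]

end Fermat.Agent.S52
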