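-- S53: existence of the universal deformation ring.
import Fermat.Statements.S53
import Fermat.Agent.GaloisBasic.UniversalMap

set_option autoImplicit false
open GaloisRep
open IsLocalRing FermatAgent.GaloisBasic

namespace Fermat.Agent.S53

attribute [local instance] dualAlgebra

/-- Finiteness of the tangent space gives a finite set of matrix entries separating the normalised
lifts to the dual numbers over the residue field. -/
lemma exists_separates {𝒪 : Type} [CommRing 𝒪] [IsLocalRing 𝒪]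
    (ρbar : ResidualGaloisRep (ResidueField 𝒪))
    (nd : NormData 𝒪 (residualMatrix ρbar))
    (𝒟 : ∀ ⦃A : Type⦄ [CommRing A] [IsLocalRing A] [Algebra 𝒪 A], GaloisRepAdic A → Prop)
    (hfin : GaloisRep.TangentFinite 𝒪 ρbar 𝒟) : ∃ S : Finset EntryIdx, Separates nd 𝒟 S := by
  classical
  let g : ResidueField 𝒪 →+* ResidueField (DualNumber (ResidueField 𝒪)) :=
    (IsLocalRing.residue (DualNumber (ResidueField 𝒪))).comp
      (algebraMap (ResidueField 𝒪) (DualNumber (ResidueField 𝒪)))
  have hg : g = iotaRes (DualNumber (ResidueField 𝒪)) := by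
    refine RingHom.ext fun x => ?_
    obtain ⟨o, rfl⟩ := residue_surjective x
    rw [iotaRes, ResidueField.map_residue]
    rfl
  have hprop : ∀ M : {M : MatRep (DualNumber (ResidueField 𝒪)) // GoodLift nd 𝒟 M},
      (toRep M.1 M.2.cont).residual.IsEquiv (ρbar.baseChangeAlong g) := by
    intro M
    rw [residual_isEquiv_baseChangeAlong_iff _ (Pi.basisFun _ (Fin 2)), hg, matrixIn_toRep]
    exact ⟨1, fun σ => by rw [M.2.res]; simp⟩
  unfold GaloisRep.TangentFinite at hfin
  have : Finite {M : MatRep (DualNumber (ResidueField 𝒪)) // GoodLift nd 𝒟 M} := by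
    refine @Finite.of_injective _ _ hfin
      (fun M => Quotient.mk _ ⟨toRep M.1 M.2.cont, M.2.cond, hprop M⟩) fun M M' h => ?_
    exact Subtype.ext (IsNormal.eq_of_matConj nd M.2.res M'.2.res M.2.normal M'.2.normal
      (matConj_of_isEquiv_toRep (hM := M.2.cont) (hM' := M'.2.cont) (Quotient.exact h))).symm
  have := Fintype.ofFinite {M : MatRep (DualNumber (ResidueField 𝒪)) // GoodLift nd 𝒟 M}
  have key : ∀ p : {M : MatRep (DualNumber (ResidueField 𝒪)) // GoodLift nd 𝒟 M} ×
      {M : MatRep (DualNumber (ResidueField 𝒪)) // GoodLift nd 𝒟 M}, ∃ x : EntryIdx,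
      p.1 ≠ p.2 → p.1.1 x.1 x.2.1 x.2.2 ≠ p.2.1 x.1 x.2.1 x.2.2 := by
    intro p
    by_cases hp : p.1 = p.2
    · exact ⟨(1, 0, 0), fun h => absurd hp h⟩
    · by_contra hno
      push Not at hno
      exact hp (Subtype.ext (MonoidHom.ext fun σ => Matrix.ext fun i j => (hno (σ, i, j)).2))
  choose x hx using key
  refine ⟨Finset.univ.image x, fun M M' hM hM' h => ?_⟩
  by_contra hne
  exact hx (⟨M, hM⟩, ⟨M', hM'⟩) (fun e => hne (congrArg Subtype.val e))
    (h _ (Finset.mem_image_of_mem x (Finset.mem_univ _)))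

/-- The representation over the ring constructed from a deformation problem is universal among
deformations with values in complete local algebras. -/
lemma nonempty_of_defProblem {𝒪 : Type} [CommRing 𝒪] [IsDomain 𝒪] [IsDiscreteValuationRing 𝒪]
    [IsAdicComplete (IsLocalRing.maximalIdeal 𝒪) 𝒪] [Finite (IsLocalRing.ResidueField 𝒪)]
    (ρbar : ResidualGaloisRep (IsLocalRing.ResidueField 𝒪))
    (habs : ρbar.IsAbsolutelyIrreducible) (D : DefProblem 𝒪)
    (hr : D.rbar = residualMatrix ρbar) :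
    Nonempty (GaloisRep.DeformationRingData 𝒪 ρbar D.cond) := by
  classical
  refine ⟨{ R := D.UR, residue_surjective := D.residue_surjective_UR, absIrr := habs,
            ρ := D.univRep, isOfType := D.univRep_cond, residual_isEquiv := ?_,
            universal := ?_ }⟩
  · show (toRep D.univMat D.univMat_continuous).residual.IsEquiv
      (ρbar.baseChangeAlong (iotaRes D.UR))
    rw [residual_isEquiv_baseChangeAlong_iff _ (Pi.basisFun _ (Fin 2)), matrixIn_toRep,
      D.univMat_residual, ← hr]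
    exact ⟨1, fun σ => by simp⟩
  intro A _ _ _ _ _ _ hs ρA hρA hres
  let b := Module.finBasisOfFinrankEq A ρA.V ρA.finrank_eq
  obtain ⟨M, hconj, hMc, hMres, hMn⟩ := exists_normalised D.nd (matContinuous_matrixIn ρA b)
    (hr ▸ (residual_isEquiv_baseChangeAlong_iff ρA b (iotaRes A) ρbar).mp hres)
  obtain ⟨eA⟩ : ρA.IsEquiv (toRep M hMc) := by
    obtain ⟨e1⟩ := isEquiv_toRep_matrixIn ρA b
    obtain ⟨e2⟩ := isEquiv_toRep_of_matConj (matContinuous_matrixIn ρA b) hMc hconj
    exact ⟨e1.trans e2⟩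
  have hcond : D.cond (toRep M hMc) :=
    (D.isCond.iff_forall_surjective inferInstance hs _).mpr fun _ _ _ _ htest q hq hsur =>
      D.isCond.of_isEquiv htest ⟨GaloisRepAdic.Equiv.baseChangeAlong _ hq eA⟩
        ((D.isCond.iff_forall_surjective inferInstance hs ρA).mp hρA htest q hq hsur)
  obtain ⟨φR, hφR⟩ := exists_univHom D hs hMc hMres hMn fun n _ hc => by
    obtain ⟨hloc, htest, -⟩ := isArtinianTestAlgebra_quotient (𝒪 := 𝒪) hs n
    have := htest.isLocalHom
    exact (goodLift_quotient D.isCond hs hMc hMres hMn hcond htest).cond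
  have hloc : IsLocalHom (φR : D.UR →+* A) := isLocalHom_univ D φR hφR hMres
  refine ⟨φR, ⟨hloc, ?_⟩, ?_⟩
  · obtain ⟨e4⟩ := baseChangeAlong_toRep (φR : D.UR →+* A) hloc D.univMat D.univMat_continuous
    obtain ⟨e5⟩ := isEquiv_toRep_of_matConj (D.univMat_continuous.map (φR : D.UR →+* A)) hMc
      ⟨1, fun σ => by simp [← hφR]⟩
    exact ⟨(e4.trans e5).trans eA.symm⟩
  · rintro φ' ⟨hloc', ⟨e'⟩⟩
    have := hloc'
    have hM' : mapRep (φ' : D.UR →+* A) D.univMat = M := by
      obtain ⟨e4⟩ := baseChangeAlong_toRep (φ' : D.UR →+* A) hloc' D.univMat D.univMat_continuous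
      have hc := matConj_of_isEquiv_toRep (hM := D.univMat_continuous.map (φ' : D.UR →+* A))
        (hM' := hMc) ⟨(e4.symm.trans e').trans eA⟩
      exact (IsNormal.eq_of_matConj D.nd (D.univMat_residual.map φ') hMres
        (D.univMat_normal.map φ') hMn hc).symm
    exact (univHom_ext D hs hMres hφR fun x => DFunLike.congr_fun hM' x).symm

theorem result
    (𝒪 : Type) [CommRing 𝒪] [IsDomain 𝒪] [IsDiscreteValuationRing 𝒪]
    [IsAdicComplete (IsLocalRing.maximalIdeal 𝒪) 𝒪] [Finite (IsLocalRing.ResidueField 𝒪)]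
    (ρbar : ResidualGaloisRep (IsLocalRing.ResidueField 𝒪))
    (𝒟 : ∀ ⦃A : Type⦄ [CommRing A] [IsLocalRing A] [Algebra 𝒪 A], GaloisRepAdic A → Prop)
    (habs : ρbar.IsAbsolutelyIrreducible)
    (h𝒟 : GaloisRep.IsDeformationCondition 𝒪 𝒟)
    (hbar : 𝒟 (GaloisRepAdic.ofResidualGaloisRep ρbar))
    (hfin : GaloisRep.TangentFinite 𝒪 ρbar 𝒟) :
    Nonempty (GaloisRep.DeformationRingData 𝒪 ρbar 𝒟) := by
  classical
  obtain ⟨nd⟩ := nonempty_normData (residualMatrix ρbar) (span_range_eq_top_of_absIrr ρbar habs)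
  obtain ⟨S, hS⟩ := exists_separates ρbar nd 𝒟 hfin
  obtain ⟨ϖ, hϖ⟩ := IsDiscreteValuationRing.exists_irreducible 𝒪
  have hm0 := (IsDiscreteValuationRing.irreducible_iff_uniformizer ϖ).mp hϖ
  have hbase : GoodLift nd 𝒟 (residualMatrix ρbar) := by
    refine ⟨isArtinianTestAlgebra_residueField, matContinuous_matrixIn _ _, ?_, ?_, ?_⟩
    · refine MonoidHom.ext fun σ => Matrix.ext fun i j => ?_
      obtain ⟨o, ho⟩ := residue_surjective (residualMatrix ρbar σ i j)
      simp only [mapRep_apply, Matrix.map_apply]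
      rw [← ho, iotaRes, ResidueField.map_residue]
      rfl
    · have h : ∀ c : GQ →₀ 𝒪, linComb c (residualMatrix ρbar) =
          c.sum fun g a => residue 𝒪 a • residualMatrix ρbar g := fun c => rfl
      refine ⟨?_, ?_, ?_⟩
      · rw [h, nd.cx_spec]; simp
      · rw [h, nd.cx_spec]; simp
      · rw [h, nd.cy_spec]; simp
    · exact h𝒟.of_isEquiv isArtinianTestAlgebra_residueField
        (isEquiv_toRep_matrixIn (GaloisRepAdic.ofResidualGaloisRep ρbar) _) hbar
  exact nonempty_of_defProblem ρbar habs ⟨residualMatrix ρbar, nd, 𝒟, h𝒟, hbase, S, hS, ϖ, hm0⟩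
    rfl

end Fermat.Agent.S53
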