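-- S54: the universal deformation ring maps onto the coefficient ring of a Hecke-Galois datum.
import Fermat.Statements.S54
import Fermat.Agent.GaloisBasic.Frobenius

set_option autoImplicit false
open GaloisRep GaloisRep.DeformationRingData
open FermatAgent.GaloisBasic

namespace Fermat.Agent.S54

/-- Equivalent representations have the same trace. -/
lemma trace_of_isEquiv {A : Type} [CommRing A] [IsLocalRing A] {ρ₁ ρ₂ : GaloisRepAdic A}
    (h : ρ₁.IsEquiv ρ₂) (σ : GQ) : ρ₁.trace σ = ρ₂.trace σ := by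
  obtain ⟨e⟩ := h
  have : ρ₂.ρ σ = e.toLinearEquiv.conj (ρ₁.ρ σ) := by
    ext x
    rw [LinearEquiv.conj_apply_apply, e.map_apply, LinearEquiv.apply_symm_apply]
  rw [GaloisRepAdic.trace, GaloisRepAdic.trace, this, LinearMap.trace_conj']

/-- The trace commutes with a change of coefficient ring. -/
lemma trace_baseChangeAlong {A B : Type} [CommRing A] [IsLocalRing A] [CommRing B] [IsLocalRing B]
    (φ : A →+* B) (hφ : IsLocalHom φ) (ρ : GaloisRepAdic A) (σ : GQ) :
    (ρ.baseChangeAlong φ hφ).trace σ = φ (ρ.trace σ) := by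
  let : Algebra A B := φ.toAlgebra
  exact LinearMap.trace_baseChange (ρ.ρ σ) B

/-- If the characteristic polynomial at `σ` is `X ^ 2 - a * X + b` then the trace at `σ` is `a`. -/
lemma trace_of_charpoly {A : Type} [CommRing A] [IsLocalRing A] (ρ : GaloisRepAdic A) (σ : GQ)
    (a b : A) (h : LinearMap.charpoly (ρ.ρ σ) =
      Polynomial.X ^ 2 - Polynomial.C a * Polynomial.X + Polynomial.C b) : ρ.trace σ = a := by
  let bas := Module.Free.chooseBasis A ρ.V
  have : Nontrivial ρ.V := Module.nontrivial_of_finrank_pos (R := A)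
    (by rw [ρ.finrank_eq]; norm_num)
  rw [GaloisRepAdic.trace, LinearMap.trace_eq_matrix_trace A bas,
    Matrix.trace_eq_neg_charpoly_coeff, LinearMap.charpoly_toMatrix, h]
  have hcard : Fintype.card (Module.Free.ChooseBasisIndex A ρ.V) = 2 := by
    rw [← Module.finrank_eq_card_chooseBasisIndex, ρ.finrank_eq]
  rw [hcard]
  simp

theorem result {𝒪 : Type} [CommRing 𝒪] [IsDomain 𝒪] [IsDiscreteValuationRing 𝒪] [IsAdicComplete (IsLocalRing.maximalIdeal 𝒪) 𝒪] {ρbar : ResidualGaloisRep (IsLocalRing.ResidueField 𝒪)} {𝒟 : ∀ ⦃A : Type⦄ [CommRing A] [IsLocalRing A] [Algebra 𝒪 A], GaloisRepAdic A → Prop} (D : GaloisRep.DeformationRingData 𝒪 ρbar 𝒟) {N : ℕ} [NeZero N] {S : Set ℕ} {θ : CuspForm.heckeAlgebra N 2 S →+* IsLocalRing.ResidueField 𝒪} {T : Type} [CommRing T] [IsLocalRing T] [IsNoetherianRing T] [IsAdicComplete (IsLocalRing.maximalIdeal T) T] [Algebra 𝒪 T] [IsLocalHom (algebraMap 𝒪 T)] [Module.Finite 𝒪 T] [Module.Free 𝒪 T] (H : CuspForm.HeckeGaloisRepDatum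 N S 𝒪 θ T) (hS : ∀ q : ℕ, q.Prime → q ∣ N → q ∈ S) (h𝒟 : 𝒟 H.ρ) (hres : H.ρ.residual.IsEquiv (ρbar.baseChangeAlong (IsLocalRing.ResidueField.map (algebraMap 𝒪 T)))) : ∃ φ : D.R →ₐ[𝒪] T, Function.Surjective φ ∧ ∃ hφ : IsLocalHom (φ : D.R →+* T), (D.ρ.baseChangeAlong (φ : D.R →+* T) hφ).IsEquiv H.ρ := by
  obtain ⟨φ, ⟨hφ, hequiv⟩, -⟩ := D.universal T H.residue_surjective H.ρ h𝒟 hres
  refine ⟨φ, ?_, hφ, hequiv⟩
  -- surjectivity: the Hecke generators are traces of Frobenius elements, hence in the image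
  have hgen : ∀ t : CuspForm.heckeAlgebra N 2 S, H.π t ∈ φ.range := by
    intro t
    obtain ⟨t, ht⟩ := t
    induction ht using Algebra.adjoin_induction with
    | mem x hx =>
      rcases hx with ⟨ℓ, hℓ, hℓN, hℓS, rfl⟩ | ⟨q, hqN, hq, hqS, rfl⟩
      · obtain ⟨A, hA⟩ := exists_liesOverPrime hℓ
        obtain ⟨σ, hσ⟩ := exists_isFrobeniusAt hℓ hA
        have h1 := trace_of_charpoly H.ρ σ _ _ (H.charpoly_frob ℓ hℓ hℓN hℓS A hA σ hσ)
        have h2 := trace_of_isEquiv hequiv σ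
        rw [trace_baseChangeAlong, h1] at h2
        exact ⟨D.ρ.trace σ, h2⟩
      · exact absurd (hS q hq hqN) hqS
    | algebraMap r =>
      have : (⟨algebraMap ℤ _ r, Subalgebra.algebraMap_mem _ r⟩ : CuspForm.heckeAlgebra N 2 S) =
          (r : CuspForm.heckeAlgebra N 2 S) := by
        apply Subtype.ext
        simp
      rw [this, map_intCast]
      exact intCast_mem _ _
    | add x y hx hy ihx ihy =>
      have := add_mem ihx ihy
      rwa [← map_add] at this
    | mul x y hx hy ihx ihy =>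
      have := mul_mem ihx ihy
      rwa [← map_mul] at this
  rw [← AlgHom.range_eq_top, eq_top_iff, ← H.adjoin_range_π, Algebra.adjoin_le_iff]
  rintro _ ⟨t, rfl⟩
  exact hgen t

end Fermat.Agent.S54
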