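-- S57: patching, descent step.
import Fermat.Statements.S57
import Fermat.Agent.GaloisBasic.RegularFree
import Fermat.Agent.GaloisBasic.PowerSeriesRegular

set_option autoImplicit false
open Algebra Algebra.PatchingLevel
open RingTheory.Sequence FermatAgent.GaloisBasic Pointwise

namespace Fermat.Agent.S57

/-- Freeness of the patched module descends along `L.π`, whose kernel is `I • ⊤`. -/
private theorem free_descend
    {𝒪 : Type} [CommRing 𝒪] [IsDomain 𝒪] [IsDiscreteValuationRing 𝒪]
    {r : ℕ} {R : Type} [CommRing R] [Algebra 𝒪 R]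
    {M : Type} [AddCommGroup M] [Module R M]
    (L : Algebra.PatchingLevel 𝒪 r R M ⊥) [Module.Finite (MvPowerSeries (Fin r) 𝒪) L.N]
    [Nontrivial L.N] (hfree : Module.Free (MvPowerSeries (Fin r) 𝒪) L.N) :
    Module.Free R M ∧ Module.annihilator R M = ⊥ ∧
      RingHom.ker L.ψ = Ideal.span (Set.range fun i : Fin r => L.φ (MvPowerSeries.X i)) := by
  classical
  set I : Ideal (MvPowerSeries (Fin r) 𝒪) :=
    Ideal.span (Set.range fun i : Fin r => L.φ (MvPowerSeries.X i)) with hI
  let B := Module.Free.chooseBasis (MvPowerSeries (Fin r) 𝒪) L.N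
  let ι := Module.Free.ChooseBasisIndex (MvPowerSeries (Fin r) 𝒪) L.N
  have : Nonempty ι := B.index_nonempty
  have hcoord : ∀ x ∈ I • (⊤ : Submodule (MvPowerSeries (Fin r) 𝒪) L.N), ∀ j, B.repr x j ∈ I := by
    intro x hx j
    refine Submodule.smul_induction_on (p := fun y => B.repr y j ∈ I) hx
      (fun a ha y _ => ?_) (fun y z hy hz => ?_)
    · simp only [map_smul, Finsupp.smul_apply, smul_eq_mul]
      exact I.mul_mem_right _ ha
    · simp only [map_add, Finsupp.add_apply]
      exact I.add_mem hy hz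
  have hker : RingHom.ker L.ψ = I := by
    apply le_antisymm
    · intro f hf
      obtain ⟨j⟩ := ‹Nonempty ι›
      have h1 : L.π (f • B j) = 0 := by
        rw [L.π_smul, RingHom.mem_ker.mp hf, zero_smul]
      have h2 := hcoord _ ((L.ker_π _).mp h1) j
      simpa using h2
    · rw [hI, Ideal.span_le]
      rintro _ ⟨i, rfl⟩
      exact L.ψ_φ_X i
  have hli : LinearIndependent R (fun j => L.π (B j)) := by
    rw [Fintype.linearIndependent_iff]
    intro g hg j
    choose f hf using fun j => L.ψ_surjective (g j)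
    have h1 : L.π (∑ i, f i • B i) = 0 := by
      rw [map_sum, ← hg]
      exact Finset.sum_congr rfl fun i _ => by rw [L.π_smul, hf]
    have h2 := hcoord _ ((L.ker_π _).mp h1) j
    rw [B.repr_sum_self, ← hker] at h2
    rw [← hf j]
    exact RingHom.mem_ker.mp h2
  have hspan : ⊤ ≤ Submodule.span R (Set.range fun j => L.π (B j)) := by
    intro m _
    obtain ⟨x, rfl⟩ := L.π_surjective m
    rw [← B.sum_repr x, map_sum]
    refine Submodule.sum_mem _ fun i _ => ?_
    rw [L.π_smul]
    exact Submodule.smul_mem _ _ (Submodule.subset_span ⟨i, rfl⟩)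
  let BM : Module.Basis ι R M := Module.Basis.mk hli hspan
  refine ⟨Module.Free.of_basis BM, ?_, hker⟩
  rw [eq_bot_iff]
  intro a ha
  obtain ⟨j⟩ := ‹Nonempty ι›
  have h := Module.mem_annihilator.mp ha (BM j)
  have h2 := congrArg (fun m => BM.repr m j) h
  simpa using h2

theorem result
    {𝒪 : Type} [CommRing 𝒪] [IsDomain 𝒪] [IsDiscreteValuationRing 𝒪]
    {r : ℕ} {R : Type} [CommRing R] [Algebra 𝒪 R]
    {M : Type} [AddCommGroup M] [Module R M] [Nontrivial M]
    (L : Algebra.PatchingLevel 𝒪 r R M ⊥) :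
    Module.Free R M ∧ Module.annihilator R M = ⊥ ∧
      RingHom.ker L.ψ = Ideal.span (Set.range fun i : Fin r => L.φ (MvPowerSeries.X i)) := by
  classical
  set I : Ideal (MvPowerSeries (Fin r) 𝒪) :=
    Ideal.span (Set.range fun i : Fin r => L.φ (MvPowerSeries.X i)) with hI
  -- `L.N` is finite and nonzero
  have : Module.Finite (MvPowerSeries (Fin r) 𝒪) L.N := by
    refine ⟨⟨Finset.univ.image L.b, ?_⟩⟩
    rw [_root_.eq_top_iff]
    intro x _
    obtain ⟨c, rfl⟩ := L.b_span x
    exact Submodule.sum_mem _ fun i _ =>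
      Submodule.smul_mem _ _ (Submodule.subset_span (by simp))
  have : Nontrivial L.N := by
    obtain ⟨m, m', hm⟩ := exists_pair_ne M
    obtain ⟨x, rfl⟩ := L.π_surjective m
    obtain ⟨y, rfl⟩ := L.π_surjective m'
    exact ⟨x, y, fun h => hm (by rw [h])⟩
  have hmem : ∀ i : Fin r,
      L.φ (MvPowerSeries.X i) ∈ IsLocalRing.maximalIdeal (MvPowerSeries (Fin r) 𝒪) := by
    intro i
    rw [IsLocalRing.mem_maximalIdeal, mem_nonunits_iff]
    intro hu
    have htop : I = ⊤ := Ideal.eq_top_of_isUnit_mem _ (Ideal.subset_span ⟨i, rfl⟩) hu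
    obtain ⟨m, hm⟩ := exists_ne (0 : M)
    obtain ⟨x, rfl⟩ := L.π_surjective m
    refine hm ((L.ker_π x).mpr ?_)
    rw [← hI, htop, Submodule.top_smul]
    exact Submodule.mem_top
  obtain ⟨ϖ, hϖ⟩ := IsDiscreteValuationRing.exists_irreducible 𝒪
  have hm0 := (IsDiscreteValuationRing.irreducible_iff_uniformizer ϖ).mp hϖ
  have hreg0 : IsSMulRegular 𝒪 ϖ := fun x y h => mul_left_cancel₀ hϖ.ne_zero h
  -- the basis identification
  let E : (Fin L.d → MvPowerSeries (Fin r) 𝒪) →+ L.N :=
    { toFun := fun c => ∑ i, L.φ (c i) • L.b i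
      map_zero' := by simp
      map_add' := fun c c' => by simp [add_smul, Finset.sum_add_distrib] }
  have hEinj : Function.Injective E := by
    rw [injective_iff_map_eq_zero]
    intro c hc
    exact funext fun i => Ideal.mem_bot.mp ((L.b_rel c).mp hc i)
  have hEsurj : Function.Surjective E := fun x => by
    obtain ⟨c, hc⟩ := L.b_span x
    exact ⟨c, hc.symm⟩
  have hEsmul : ∀ (f : MvPowerSeries (Fin r) 𝒪) c, E (f • c) = L.φ f • E c := fun f c => by
    simp [E, Finset.smul_sum, smul_smul]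
  -- `ϖ` and the images of the variables form a regular sequence on `L.N`, so it is free
  let rs : List (MvPowerSeries (Fin r) 𝒪) :=
    List.ofFn (MvPowerSeries.X : Fin r → MvPowerSeries (Fin r) 𝒪) ++ [MvPowerSeries.C ϖ]
  have hweak : IsWeaklyRegular (Fin L.d → MvPowerSeries (Fin r) 𝒪) rs := by
    refine (LinearEquiv.isWeaklyRegular_congr
      (TensorProduct.rid (MvPowerSeries (Fin r) 𝒪) (Fin L.d → MvPowerSeries (Fin r) 𝒪)) rs).mp ?_
    exact (isWeaklyRegular_X_C r hreg0).isWeaklyRegular_lTensor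
  have hweakN : IsWeaklyRegular L.N (rs.map L.φ) := by
    refine (AddEquiv.isWeaklyRegular_congr
      (e := AddEquiv.ofBijective E ⟨hEinj, hEsurj⟩) ?_).mp hweak
    rw [List.forall₂_map_right_iff, List.forall₂_same]
    exact fun f _ c => hEsmul f c
  have hC : L.φ (MvPowerSeries.C ϖ) = MvPowerSeries.C ϖ := L.φ.commutes ϖ
  have hrsmem : ∀ f ∈ rs.map L.φ, f ∈ IsLocalRing.maximalIdeal (MvPowerSeries (Fin r) 𝒪) := by
    intro f hf
    obtain ⟨g, hg, rfl⟩ := List.mem_map.mp hf
    rcases List.mem_append.mp hg with hg | hg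
    · obtain ⟨i, rfl⟩ := List.mem_ofFn.mp hg
      exact hmem i
    · rw [List.mem_singleton.mp hg, hC, mem_maximalIdeal_iff_constantCoeff,
        MvPowerSeries.constantCoeff_C, hm0]
      exact Ideal.subset_span rfl
  have hfree : Module.Free (MvPowerSeries (Fin r) 𝒪) L.N :=
    free_of_isRegular_length (r + 1) _ (maximalIdeal_eq_span r hm0).symm L.N (rs.map L.φ)
      (by simp [rs]) hrsmem (IsRegular.of_isWeaklyRegular_of_mem_maximalIdeal _ hrsmem hweakN)
  exact free_descend L hfree

end Fermat.Agent.S57
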